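/-
C1 nodal core, instantiation, block K1 (helper214): the two degeneracy maps `al`, `be` from level
`M` to level `M q` and the pair of reductions.

Parametric setting of `Inst/Defs.lean`.  `Deg` bundles `al a = a(t)`, `be a = a(t ^ q)` and their
relation with the involution `w`.  Results:
`red2 (al a) = (ρ a, (ρ a)(t ^ q))`, `red2 (be a) = ((ρ a)(t ^ q), ρ a)`.
-/
import Fermat.Agent.S34.Nodal.Inst.Defs
import Fermat.Agent.Lib.MulHecke.Basic

set_option autoImplicit false

noncomputable section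

namespace Fermat.Agent.S34.Nodal.Inst.Kron

open ModularCurve Fermat.Agent.S18.Vert Fermat.Agent.Lib.MulHecke

variable {K : Type*} [Field K] (A : ValuationSubring K)
variable (F F' : IntermediateField K (LaurentSeries K)) (w : F ≃ₐ[K] F) (q : ℕ) [NeZero q]

/-- The two degeneracy maps `a(t) ↦ a(t)` and `a(t) ↦ a(t ^ q)`; `w` exchanges them. -/
structure Deg where
  /-- `a(t) ↦ a(t)` -/
  al : F' →ₐ[K] F
  /-- `a(t) ↦ a(t ^ q)` -/
  be : F' →ₐ[K] F
  coe_al : ∀ a : F', ((al a : F) : LaurentSeries K) = a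
  coe_be : ∀ a : F', ((be a : F) : LaurentSeries K) = qExpand K q (a : LaurentSeries K)
  w_al : ∀ a : F', w (al a) = be a
  w_be : ∀ a : F', w (be a) = al a

theorem inc_qExpand (P : LaurentSeries A) : inc A (qExpand A q P) = qExpand K q (inc A P) :=
  coeffMap_qExpand _ q P

theorem red_qExpand (P : LaurentSeries A) : red A (qExpand A q P) = qExpand (kk A) q (red A P) :=
  coeffMap_qExpand _ q P

variable {A F F' w q}

namespace Deg

variable (D : Deg F F' w q)

include D in
theorem mem_of_mem {f : LaurentSeries K} (hf : f ∈ F') : f ∈ F := by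
  have := (D.al ⟨f, hf⟩).2
  rwa [D.coe_al] at this

include D in
theorem qExpand_mem_of_mem {f : LaurentSeries K} (hf : f ∈ F') : qExpand K q f ∈ F := by
  have := (D.be ⟨f, hf⟩).2
  rwa [D.coe_be] at this

theorem al_mem_gauss {a : F'} (ha : a ∈ gaussSubring A F') : D.al a ∈ gaussSubring A F := by
  obtain ⟨P, Q, hP, hQ, hQ0, h⟩ := ha
  exact ⟨P, Q, D.mem_of_mem hP, D.mem_of_mem hQ, hQ0, by rw [D.coe_al]; exact h⟩

theorem be_mem_gauss {a : F'} (ha : a ∈ gaussSubring A F') : D.be a ∈ gaussSubring A F := by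
  obtain ⟨P, Q, hP, hQ, hQ0, h⟩ := ha
  refine ⟨qExpand A q P, qExpand A q Q, ?_, ?_, ?_, ?_⟩
  · rw [inc_qExpand]; exact D.qExpand_mem_of_mem hP
  · rw [inc_qExpand]; exact D.qExpand_mem_of_mem hQ
  · rw [red_qExpand]
    exact fun h0 => hQ0 (qExpand_injective q (h0.trans (map_zero _).symm))
  · rw [D.coe_be, inc_qExpand, inc_qExpand, ← map_mul, h]

theorem rho_al (a : gaussSubring A F') :
    rho A F ⟨D.al a, D.al_mem_gauss a.2⟩ = rho A F' a := by
  obtain ⟨P, Q, hP, hQ, hQ0, h⟩ := a.2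
  have h1 := rho_spec (A := A) (F := F') a hQ0 h
  have h2 := rho_spec (A := A) (F := F) ⟨D.al a, D.al_mem_gauss a.2⟩ (P := P) hQ0
    (by rw [D.coe_al]; exact h)
  exact mul_right_cancel₀ hQ0 (h2.trans h1.symm)

theorem rho_be (a : gaussSubring A F') :
    rho A F ⟨D.be a, D.be_mem_gauss a.2⟩ = qExpand (kk A) q (rho A F' a) := by
  obtain ⟨P, Q, hP, hQ, hQ0, h⟩ := a.2
  have h1 := rho_spec (A := A) (F := F') a hQ0 h
  have hQ0' : red A (qExpand A q Q) ≠ 0 := by
    rw [red_qExpand]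
    exact fun h0 => hQ0 (qExpand_injective q (h0.trans (map_zero _).symm))
  have h2 := rho_spec (A := A) (F := F) ⟨D.be a, D.be_mem_gauss a.2⟩ (P := qExpand A q P) hQ0'
    (by rw [D.coe_be, inc_qExpand, inc_qExpand, ← map_mul, h])
  apply mul_right_cancel₀ hQ0'
  rw [h2, red_qExpand, red_qExpand, ← map_mul, h1]

theorem al_mem_OO {a : F'} (ha : a ∈ gaussSubring A F') : D.al a ∈ OO A F w :=
  ⟨D.al_mem_gauss ha, by
    show w (D.al a) ∈ gaussSubring A F
    rw [D.w_al]; exact D.be_mem_gauss ha⟩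

theorem be_mem_OO {a : F'} (ha : a ∈ gaussSubring A F') : D.be a ∈ OO A F w :=
  ⟨D.be_mem_gauss ha, by
    show w (D.be a) ∈ gaussSubring A F
    rw [D.w_be]; exact D.al_mem_gauss ha⟩

theorem red2_al (a : gaussSubring A F') :
    red2 A F w ⟨D.al a, D.al_mem_OO a.2⟩ = (rho A F' a, qExpand (kk A) q (rho A F' a)) := by
  refine Prod.ext ?_ ?_
  · rw [red2_fst]; exact D.rho_al a
  · rw [red2_snd, ← D.rho_be a]
    congr 1
    exact Subtype.ext (D.w_al a)

theorem red2_be (a : gaussSubring A F') :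
    red2 A F w ⟨D.be a, D.be_mem_OO a.2⟩ = (qExpand (kk A) q (rho A F' a), rho A F' a) := by
  refine Prod.ext ?_ ?_
  · rw [red2_fst]; exact D.rho_be a
  · rw [red2_snd, ← D.rho_al a]
    congr 1
    exact Subtype.ext (D.w_be a)

end Deg

end Fermat.Agent.S34.Nodal.Inst.Kron

end
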