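/-
C1 nodal core, instantiation, block K3 (helper214): the conductor condition on the second chart
(field `hcond2` of `Contracts`).

`x = al x' * be x'`, `s = ρ (x'⁻¹)`.  The elements `ε = al x' * be x'⁻¹ ^ q - 1` and
`ε' = be x' * al x'⁻¹ ^ q - 1` of the second chart reduce to `(s ^ (q ^ 2 - 1) - 1, 0)` and
`(0, s ^ (q ^ 2 - 1) - 1)`, and `red2 x⁻¹ = (s ^ (q + 1), s ^ (q + 1))`; so `P = X ^ (q - 1) - 1` works.
-/
import Fermat.Agent.S34.Nodal.Inst.Kron.Basic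

set_option autoImplicit false

noncomputable section

namespace Fermat.Agent.S34.Nodal.Inst.Kron

open ModularCurve Fermat.Agent.S18.Vert Fermat.Agent.Lib.MulHecke Polynomial

variable {K : Type*} [Field K] {A : ValuationSubring K}
variable {F F' : IntermediateField K (LaurentSeries K)} {w : F ≃ₐ[K] F} {q : ℕ} [NeZero q]

/-- Integrality transfer between the levels, chart 2. -/
structure Transfer2 (D : Deg F F' w q) (x' : F') (x : F) : Prop where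
  al : ∀ a : F', IsIntegral (Algebra.adjoin K {x'⁻¹}) a →
    IsIntegral (Algebra.adjoin K {x⁻¹}) (D.al a)
  be : ∀ a : F', IsIntegral (Algebra.adjoin K {x'⁻¹}) a →
    IsIntegral (Algebra.adjoin K {x⁻¹}) (D.be a)
  eps : IsIntegral (Algebra.adjoin K {x⁻¹}) (D.al x' * D.be x'⁻¹ ^ q)
  eps' : IsIntegral (Algebra.adjoin K {x⁻¹}) (D.be x' * D.al x'⁻¹ ^ q)

private theorem sq_eq (q : ℕ) (hq : 1 ≤ q) : q * q = (q + 1) * (q - 1) + 1 := by
  obtain ⟨r, rfl⟩ := Nat.exists_eq_add_of_le' hq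
  simp only [Nat.add_sub_cancel]
  ring

/-- The computation in the residue ring. -/
private theorem res_calc {R : Type*} [CommRing R] (X s : R) (h : X * s = 1) (q : ℕ) (hq : 1 ≤ q) :
    X * (s ^ q) ^ q - 1 = (s * s ^ q) ^ (q - 1) - 1 ∧ X ^ q * s ^ q - 1 = 0 := by
  constructor
  · rw [← pow_mul, sq_eq q hq, pow_succ, ← mul_assoc, mul_comm X, mul_assoc, h, mul_one,
      ← pow_succ', ← pow_mul]
  · rw [← mul_pow, h, one_pow, sub_self]

/-- The field `hcond2` of `Contracts`. -/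
theorem exists_hcond2 (D : Deg F F' w q) {x' : F'} {x : F} (T : Transfer2 D x' x)
    (hq : 2 ≤ q) (hx0 : x' ≠ 0) (hx1 : x' ∈ gaussSubring A F') (hx2 : x'⁻¹ ∈ gaussSubring A F')
    (hx : x = D.al x' * D.be x')
    (hFq : qExpand (kk A) q (rho A F' ⟨x', hx1⟩) = rho A F' ⟨x', hx1⟩ ^ q)
    (xinv_mem : x⁻¹ ∈ OO A F w) :
    ∃ P : (kk A)[X], P.eval 0 ≠ 0 ∧
      ∀ v : LaurentSeries (kk A) × LaurentSeries (kk A),
        v.1 ∈ bb A F' x'⁻¹ → v.2 ∈ bb A F' x'⁻¹ →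
        ∃ y : OO A F w, (y : F) ∈ chart A F w x⁻¹ ∧
          red2 A F w y = aeval (red2 A F w ⟨x⁻¹, xinv_mem⟩) P * v := by
  set X : LaurentSeries (kk A) := rho A F' ⟨x', hx1⟩ with hX
  set s : LaurentSeries (kk A) := rho A F' ⟨x'⁻¹, hx2⟩ with hs
  have hXs : X * s = 1 := by
    rw [hX, hs, ← map_mul]
    have : (⟨x', hx1⟩ * ⟨x'⁻¹, hx2⟩ : gaussSubring A F') = 1 := Subtype.ext (mul_inv_cancel₀ hx0)
    rw [this, map_one]
  have hsq : qExpand (kk A) q s = s ^ q := by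
    have h1 : qExpand (kk A) q X * qExpand (kk A) q s = 1 := by rw [← map_mul, hXs, map_one]
    rw [hFq] at h1
    calc qExpand (kk A) q s = (X * s) ^ q * qExpand (kk A) q s := by rw [hXs, one_pow, one_mul]
      _ = s ^ q * (X ^ q * qExpand (kk A) q s) := by rw [mul_pow]; ring
      _ = s ^ q := by rw [h1, mul_one]
  -- the four basic elements
  let aX : OO A F w := ⟨D.al x', D.al_mem_OO hx1⟩
  let bX : OO A F w := ⟨D.be x', D.be_mem_OO hx1⟩
  let aS : OO A F w := ⟨D.al x'⁻¹, D.al_mem_OO hx2⟩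
  let bS : OO A F w := ⟨D.be x'⁻¹, D.be_mem_OO hx2⟩
  have haX : red2 A F w aX = (X, X ^ q) := by rw [← hFq]; exact D.red2_al ⟨x', hx1⟩
  have hbX : red2 A F w bX = (X ^ q, X) := by rw [← hFq]; exact D.red2_be ⟨x', hx1⟩
  have haS : red2 A F w aS = (s, s ^ q) := by rw [← hsq]; exact D.red2_al ⟨x'⁻¹, hx2⟩
  have hbS : red2 A F w bS = (s ^ q, s) := by rw [← hsq]; exact D.red2_be ⟨x'⁻¹, hx2⟩
  have hxinv : (⟨x⁻¹, xinv_mem⟩ : OO A F w) = aS * bS := by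
    apply Subtype.ext
    show x⁻¹ = D.al x'⁻¹ * D.be x'⁻¹
    rw [hx, mul_inv, map_inv₀, map_inv₀]
  have hredx : red2 A F w ⟨x⁻¹, xinv_mem⟩ = (s * s ^ q, s * s ^ q) := by
    rw [hxinv, map_mul, haS, hbS, Prod.mk_mul_mk, mul_comm (s ^ q) s]
  obtain ⟨c1, c2⟩ := res_calc X s hXs q (by omega)
  have hε : red2 A F w (aX * bS ^ q - 1) = ((s * s ^ q) ^ (q - 1) - 1, 0) := by
    rw [map_sub, map_mul, map_pow, map_one, haX, hbS, Prod.pow_mk, Prod.mk_mul_mk, Prod.one_eq_mk,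
      Prod.mk_sub_mk, c1, c2]
  have hε' : red2 A F w (bX * aS ^ q - 1) = (0, (s * s ^ q) ^ (q - 1) - 1) := by
    rw [map_sub, map_mul, map_pow, map_one, hbX, haS, Prod.pow_mk, Prod.mk_mul_mk, Prod.one_eq_mk,
      Prod.mk_sub_mk, c1, c2]
  have hεm : ((aX * bS ^ q - 1 : OO A F w) : F) ∈ chart A F w x⁻¹ :=
    ⟨(aX * bS ^ q - 1 : OO A F w).2, by
      rw [AddSubgroupClass.coe_sub, Subring.coe_mul, SubmonoidClass.coe_pow]
      exact T.eps.sub isIntegral_one⟩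
  have hεm' : ((bX * aS ^ q - 1 : OO A F w) : F) ∈ chart A F w x⁻¹ :=
    ⟨(bX * aS ^ q - 1 : OO A F w).2, by
      rw [AddSubgroupClass.coe_sub, Subring.coe_mul, SubmonoidClass.coe_pow]
      exact T.eps'.sub isIntegral_one⟩
  refine ⟨Polynomial.X ^ (q - 1) - 1, ?_, ?_⟩
  · rw [eval_sub, eval_pow, eval_X, eval_one, zero_pow (by omega), zero_sub]
    exact neg_ne_zero.2 one_ne_zero
  · rintro ⟨v1, v2⟩ ⟨a1, ha1, rfl⟩ ⟨a2, ha2, rfl⟩
    let y1 : OO A F w := ⟨D.al a1, D.al_mem_OO a1.2⟩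
    let y2 : OO A F w := ⟨D.be a2, D.be_mem_OO a2.2⟩
    have hy1 : red2 A F w y1 = _ := D.red2_al a1
    have hy2 : red2 A F w y2 = _ := D.red2_be a2
    refine ⟨(aX * bS ^ q - 1) * y1 + (bX * aS ^ q - 1) * y2, ?_, ?_⟩
    · rw [Subring.coe_add, Subring.coe_mul, Subring.coe_mul]
      exact (chart A F w x⁻¹).add_mem
        ((chart A F w x⁻¹).mul_mem hεm ⟨D.al_mem_OO a1.2, T.al a1 ha1.2⟩)
        ((chart A F w x⁻¹).mul_mem hεm' ⟨D.be_mem_OO a2.2, T.be a2 ha2.2⟩)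
    · rw [map_add, map_mul, map_mul, hε, hε', hy1, hy2, map_sub, map_pow, aeval_X, map_one, hredx,
        Prod.pow_mk, Prod.one_eq_mk, Prod.mk_sub_mk, Prod.mk_mul_mk, Prod.mk_mul_mk, Prod.mk_mul_mk,
        Prod.mk_add_mk, zero_mul, zero_mul, add_zero, zero_add]

end Fermat.Agent.S34.Nodal.Inst.Kron

end
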