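/-
C1 nodal core, instantiation, block K2 (helper214): the Frobenius structure on the reduction
`bb A F' x'` of the chart of level `M`, and the Kronecker elements.

`FrobInv` : a ring endomorphism `s` of `F'` preserving the chart and inducing on reductions the
inverse of the coefficientwise Frobenius (in the application `s = galF M σ⁻¹`, `σ` a Frobenius lift).

Results (the fields `Fr2`, `ψ`, `Fr2_eq`, `proj1`, `proj2`, `gen1`, `gen2` of `Contracts`):
* `FrobInv.psi`   : the inverse of the coefficientwise `q ^ 2`-Frobenius on `bb A F' x'`;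
* `FrobInv.Fr2`   : `f(t) ↦ f(t ^ (q ^ 2))` on `bb A F' x'`, and `Fr2 f = psi f ^ (q ^ 2)`;
* `exists_gen1`, `exists_gen2` : `(f - Fr2 f, 0)` and `(0, f - Fr2 f)` are reductions of elements of
  the chart of level `M q`, namely of `al a - be a₁ ^ q` and of `be a - al a₁ ^ q`.
-/
import Fermat.Agent.S34.Nodal.Inst.Kron.Basic
import Fermat.Agent.GAL.E.Frob

set_option autoImplicit false

noncomputable section

namespace Fermat.Agent.S34.Nodal.Inst.Kron

open ModularCurve Fermat.Agent.S18.Vert Fermat.Agent.Lib.MulHecke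

variable {K : Type*} [Field K] (A : ValuationSubring K)
variable (F F' : IntermediateField K (LaurentSeries K)) (w : F ≃ₐ[K] F) (q : ℕ)

/-- A lift to `F'` of the inverse of the Frobenius of the residue field. -/
structure FrobInv (x' : F') where
  /-- the inverse of the Frobenius of the residue field -/
  φi : kk A →+* kk A
  φi_pow : ∀ c, φi c ^ q = c
  /-- the lift -/
  s : F' →+* F'
  s_gauss : ∀ y ∈ gaussSubring A F', s y ∈ gaussSubring A F'
  s_int : ∀ y, IsIntegral (Algebra.adjoin K {x'}) y → IsIntegral (Algebra.adjoin K {x'}) (s y)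
  rho_s : ∀ y : gaussSubring A F', rho A F' ⟨s y, s_gauss y y.2⟩ = coeffMap φi (rho A F' y)

variable {A F F' w q}

namespace FrobInv

variable {x' : F'} (Φ : FrobInv A F' q x')

theorem coeffMap_mem {z : LaurentSeries (kk A)} (hz : z ∈ bb A F' x') :
    coeffMap Φ.φi z ∈ bb A F' x' := by
  obtain ⟨y, hy, rfl⟩ := hz
  exact ⟨⟨Φ.s y, Φ.s_gauss y y.2⟩, ⟨Φ.s_gauss y y.2, Φ.s_int y hy.2⟩, Φ.rho_s y⟩

/-- The inverse of the coefficientwise Frobenius on `bb A F' x'`. -/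
def psi1 : bb A F' x' →+* bb A F' x' :=
  ((coeffMap Φ.φi).comp (bb A F' x').val.toRingHom).codRestrict (bb A F' x')
    fun z => Φ.coeffMap_mem z.2

theorem coe_psi1 (z : bb A F' x') :
    ((Φ.psi1 z : bb A F' x') : LaurentSeries (kk A)) = coeffMap Φ.φi (z : LaurentSeries (kk A)) :=
  rfl

/-- The inverse of the coefficientwise `q ^ 2`-Frobenius on `bb A F' x'`. -/
def psi : bb A F' x' →+* bb A F' x' := Φ.psi1.comp Φ.psi1

theorem psi_apply (z : bb A F' x') : Φ.psi z = Φ.psi1 (Φ.psi1 z) := rfl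

variable [Fact q.Prime] [CharP (kk A) q]

/-- `g(t ^ q) = (φ⁻¹ g) ^ q`. -/
theorem qExpand_eq_pow [NeZero q] (g : LaurentSeries (kk A)) :
    qExpand (kk A) q g = coeffMap Φ.φi g ^ q := by
  rw [Fermat.Agent.GAL.E.pow_char_eq_qExpand q, coeffMap_coeffMap]
  congr 1
  ext n
  rw [coeffMap_coeff, RingHom.comp_apply, frobenius_def, Φ.φi_pow]

include Φ in
theorem qExpand_mem [NeZero q] {z : LaurentSeries (kk A)} (hz : z ∈ bb A F' x') :
    qExpand (kk A) q z ∈ bb A F' x' := by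
  rw [Φ.qExpand_eq_pow]
  exact pow_mem (Φ.coeffMap_mem hz) q

/-- `f(t) ↦ f(t ^ q)` on `bb A F' x'`. -/
def Fr1 [NeZero q] : bb A F' x' →+* bb A F' x' :=
  ((qExpand (kk A) q).comp (bb A F' x').val.toRingHom).codRestrict (bb A F' x')
    fun z => Φ.qExpand_mem z.2

theorem coe_Fr1 [NeZero q] (z : bb A F' x') :
    ((Φ.Fr1 z : bb A F' x') : LaurentSeries (kk A)) = qExpand (kk A) q (z : LaurentSeries (kk A)) :=
  rfl

theorem Fr1_eq [NeZero q] (z : bb A F' x') : Φ.Fr1 z = Φ.psi1 z ^ q :=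
  Subtype.ext (Φ.qExpand_eq_pow z)

/-- `f(t) ↦ f(t ^ (q ^ 2))` on `bb A F' x'`. -/
def Fr2 [NeZero q] : bb A F' x' →+* bb A F' x' := Φ.Fr1.comp Φ.Fr1

theorem Fr2_apply [NeZero q] (z : bb A F' x') : Φ.Fr2 z = Φ.Fr1 (Φ.Fr1 z) := rfl

/-- The field `Fr2_eq` of `Contracts`. -/
theorem Fr2_eq [NeZero q] (z : bb A F' x') : Φ.Fr2 z = Φ.psi z ^ (q ^ 2) := by
  rw [Fr2_apply, Fr1_eq, Fr1_eq, map_pow, ← pow_mul, psi_apply, sq]

/-- The field `Fr2_xb` of `Contracts`: for an element fixed by `psi1`. -/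
theorem Fr2_of_psi1_eq [NeZero q] {z : bb A F' x'} (hz : Φ.psi1 z = z) :
    Φ.Fr2 z = z ^ (q ^ 2) := by
  rw [Fr2_eq, psi_apply, hz, hz]

/-- `f(t) - ((φ⁻¹ f)(t ^ q)) ^ q = f - Fr2 f`. -/
theorem sub_qExpand_pow [NeZero q] (f : bb A F' x') :
    (f : LaurentSeries (kk A)) - qExpand (kk A) q (Φ.psi1 f : LaurentSeries (kk A)) ^ q
      = ((f - Φ.Fr2 f : bb A F' x') : LaurentSeries (kk A)) := by
  rw [AddSubgroupClass.coe_sub, Fr2_apply, coe_Fr1, Fr1_eq, SubmonoidClass.coe_pow, map_pow]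

/-- `f(t ^ q) - (φ⁻¹ f) ^ q = 0`. -/
theorem qExpand_sub_pow [NeZero q] (f : bb A F' x') :
    qExpand (kk A) q (f : LaurentSeries (kk A)) - (Φ.psi1 f : LaurentSeries (kk A)) ^ q = 0 := by
  rw [Φ.qExpand_eq_pow, coe_psi1, sub_self]

end FrobInv

/-- Integrality transfer between the levels, chart 1. -/
structure Transfer1 [NeZero q] (D : Deg F F' w q) (x' : F') (x : F) : Prop where
  al : ∀ a : F', IsIntegral (Algebra.adjoin K {x'}) a → IsIntegral (Algebra.adjoin K {x}) (D.al a)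
  be : ∀ a : F', IsIntegral (Algebra.adjoin K {x'}) a → IsIntegral (Algebra.adjoin K {x}) (D.be a)

section Gen

variable [NeZero q] (D : Deg F F' w q) {x' : F'} {x : F} (T : Transfer1 D x' x)

include T

theorem al_mem_chart {a : F'} (ha : a ∈ chart' A F' x') : D.al a ∈ chart A F w x :=
  ⟨D.al_mem_OO ha.1, T.al a ha.2⟩

theorem be_mem_chart {a : F'} (ha : a ∈ chart' A F' x') : D.be a ∈ chart A F w x :=
  ⟨D.be_mem_OO ha.1, T.be a ha.2⟩

/-- The field `proj1` of `Contracts`. -/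
theorem exists_proj1 (c : bb A F' x') :
    ∃ y : OO A F w, (y : F) ∈ chart A F w x ∧ (red2 A F w y).1 = c := by
  obtain ⟨a, ha, hc⟩ := c.2
  exact ⟨⟨D.al a, D.al_mem_OO a.2⟩, al_mem_chart D T ha, by rw [D.red2_al, hc]⟩

/-- The field `proj2` of `Contracts`. -/
theorem exists_proj2 (c : bb A F' x') :
    ∃ y : OO A F w, (y : F) ∈ chart A F w x ∧ (red2 A F w y).2 = c := by
  obtain ⟨a, ha, hc⟩ := c.2
  exact ⟨⟨D.be a, D.be_mem_OO a.2⟩, be_mem_chart D T ha, by rw [D.red2_be, hc]⟩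

variable [Fact q.Prime] [CharP (kk A) q] (Φ : FrobInv A F' q x')

/-- The field `gen1` of `Contracts`. -/
theorem exists_gen1 (f : bb A F' x') :
    ∃ y : OO A F w, (y : F) ∈ chart A F w x ∧
      red2 A F w y = (((f - Φ.Fr2 f : bb A F' x') : LaurentSeries (kk A)), 0) := by
  obtain ⟨a, ha, hf⟩ := f.2
  obtain ⟨a₁, ha₁, hf₁⟩ := (Φ.psi1 f).2
  let y₁ : OO A F w := ⟨D.al a, D.al_mem_OO a.2⟩
  let y₂ : OO A F w := ⟨D.be a₁, D.be_mem_OO a₁.2⟩
  have h₁ : red2 A F w y₁ = _ := D.red2_al a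
  have h₂ : red2 A F w y₂ = _ := D.red2_be a₁
  refine ⟨y₁ - y₂ ^ q, ?_, ?_⟩
  · rw [AddSubgroupClass.coe_sub, SubmonoidClass.coe_pow]
    exact (chart A F w x).sub_mem (al_mem_chart D T ha)
      ((chart A F w x).pow_mem (be_mem_chart D T ha₁) q)
  · rw [map_sub, map_pow, h₁, h₂, hf, hf₁, Prod.pow_mk, Prod.mk_sub_mk, Φ.sub_qExpand_pow,
      Φ.qExpand_sub_pow]

/-- The field `gen2` of `Contracts`. -/
theorem exists_gen2 (f : bb A F' x') :
    ∃ y : OO A F w, (y : F) ∈ chart A F w x ∧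
      red2 A F w y = (0, ((f - Φ.Fr2 f : bb A F' x') : LaurentSeries (kk A))) := by
  obtain ⟨a, ha, hf⟩ := f.2
  obtain ⟨a₁, ha₁, hf₁⟩ := (Φ.psi1 f).2
  let y₁ : OO A F w := ⟨D.be a, D.be_mem_OO a.2⟩
  let y₂ : OO A F w := ⟨D.al a₁, D.al_mem_OO a₁.2⟩
  have h₁ : red2 A F w y₁ = _ := D.red2_be a
  have h₂ : red2 A F w y₂ = _ := D.red2_al a₁
  refine ⟨y₁ - y₂ ^ q, ?_, ?_⟩
  · rw [AddSubgroupClass.coe_sub, SubmonoidClass.coe_pow]
    exact (chart A F w x).sub_mem (be_mem_chart D T ha)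
      ((chart A F w x).pow_mem (al_mem_chart D T ha₁) q)
  · rw [map_sub, map_pow, h₁, h₂, hf, hf₁, Prod.pow_mk, Prod.mk_sub_mk, Φ.sub_qExpand_pow,
      Φ.qExpand_sub_pow]

end Gen

end Fermat.Agent.S34.Nodal.Inst.Kron

end
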