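/-
C1 nodal core, instantiation, block K1 (helper214): places of `FN N` above `j = ∞` are given by the
`t`-expansions at the cusps, and the orders of the functions `j_d`, `d ∣ N`, at such a place.
-/
import Fermat.Agent.S24.Export.Ramification

set_option autoImplicit false

noncomputable section

namespace Fermat.Agent.S34.Nodal.Inst.Kron

open ModularCurve AlgebraicCurve Fermat.Agent.S24 Fermat.Agent.S24.B IntermediateField
open scoped MatrixGroups

variable (N : ℕ) [NeZero N]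

/-- The point datum at infinity, with the explicit valuation. -/
theorem isPointDatum_infty :
    IsPointDatum (Psi N) (jF N)⁻¹ ((lval Kbar).comap (texpL N).toRingHom) ModularGroup.T N := by
  refine isPointDatum_of_expansion (C := Kbar) (Psi N) _ ModularGroup.T N
    (Nat.pos_of_ne_zero (NeZero.ne N)) (texpL N).toRingHom ?_ (zetaK N)⁻¹
    (isPrimitiveRoot_zetaK N).inv texpL_T_smul ?_
  · intro a
    show texpL N (algebraMap Kbar (LN N) a) = _
    rw [AlgHom.commutes, ModularCurve.algebraMap_laurentSeries_eq_single]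
    rfl
  · show (texpL N (Psi N (jF N)⁻¹)).order = _
    rw [texpL_Psi, map_inv₀]
    have h1 : phi1 N (jF N) = ModularCurve.qExpand Kbar N (Jser 1) := rfl
    have h2 : ModularCurve.qExpand Kbar N (Jser 1) ≠ 0 := fun h =>
      Jser_one_ne_zero (ModularCurve.qExpand_injective (R := Kbar) (N := N) (by rw [h, map_zero]))
    have h3 : (ModularCurve.qExpand Kbar N (Jser 1))⁻¹ ≠ 0 := inv_ne_zero h2
    have h4 := HahnSeries.order_mul h2 h3
    rw [mul_inv_cancel₀ h2, HahnSeries.order_one, order_qExpand, order_Jser_one] at h4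
    rw [h1]
    linarith

/-- **Places above `j = ∞` are cusps**: the order function is proportional to the order of the
`t`-expansion of a translate. -/
theorem exists_gamma_of_pole (v : Place Kbar (FN N)) (hv : v.ord (jF N) < 0) :
    ∃ (γ : SL(2, ℤ)) (m : ℕ), 0 < m ∧ ∀ f : FN N, f ≠ 0 →
      (texpL N (γ • Psi N f)).order = (m : ℤ) * v.ord f := by
  have := Export.finiteDimensional N
  have hU : IsUniformization (jF N) (CongruenceSubgroup.Gamma0 N) (Psi N) := isUniformization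
  have hy : Kbar⟮(jF N)⁻¹⟯ = Kbar⟮jF N⟯ := Export.adjoin_inv (jF N)
  have hP := isPointDatum_infty N
  have hv' : 0 < v.ord (jF N)⁻¹ := by rw [v.ord_inv]; omega
  obtain ⟨q, rfl⟩ := CL.exists_conjPlace_eq (Formal.transcendental_jF N) hU hy hP v hv'
  obtain ⟨m, hm, h⟩ := CL.exists_mul_ord_conjPlace hU hy hP q
  obtain ⟨γ, rfl⟩ := QuotientGroup.mk_surjective q
  refine ⟨γ, m, hm, fun f hf => ?_⟩
  have h1 := h f hf
  rw [CL.conj_mk, Valuation.comap_apply] at h1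
  have h0 : (texpL N).toRingHom (γ • Psi N f) ≠ 0 := by
    rw [Ne, map_eq_zero, smul_eq_zero_iff_eq, map_eq_zero]
    exact hf
  rw [lval_of_ne_zero h0, WithZero.exp_inj, neg_inj] at h1
  exact h1

variable {N}

theorem gcd_mul_left_of_det (γ : SL(2, ℤ)) (d : ℤ) :
    Int.gcd (d * γ 0 0) (γ 1 0) = Int.gcd d (γ 1 0) := by
  have hdet : γ 0 0 * γ 1 1 - γ 0 1 * γ 1 0 = 1 := by
    have h := γ.2
    rw [Matrix.det_fin_two] at h
    exact h
  have hc : IsCoprime (γ 0 0) (γ 1 0) := ⟨γ 1 1, -γ 0 1, by linarith⟩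
  have h1 : Int.gcd (γ 0 0) (γ 1 0) = 1 := Int.isCoprime_iff_gcd_eq_one.1 hc
  rw [mul_comm]
  exact Int.gcd_mul_right_left_of_gcd_eq_one h1

theorem coe_GL_eq_map (δ : SL(2, ℤ)) :
    ((δ : GL (Fin 2) ℝ) : Matrix (Fin 2) (Fin 2) ℝ) = δ.1.map (Int.cast : ℤ → ℝ) := by
  ext i j; simp

/-- The order of the expansion of `j_d` at the cusp `γ⁻¹ ∞`. -/
theorem order_texpL_smul_JF (γ : SL(2, ℤ)) (d : ℕ) [NeZero d] (hd : d ∣ N) :
    (texpL N (γ • Psi N (JF N d hd))).order * d =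
      -((N : ℤ) * (Int.gcd (d : ℤ) (γ⁻¹ 1 0) : ℤ) ^ 2) := by
  let α : Matrix (Fin 2) (Fin 2) ℤ := !![(d : ℤ) * γ⁻¹ 0 0, (d : ℤ) * γ⁻¹ 0 1; γ⁻¹ 1 0, γ⁻¹ 1 1]
  have hdet' : γ⁻¹ 0 0 * γ⁻¹ 1 1 - γ⁻¹ 0 1 * γ⁻¹ 1 0 = 1 := by
    have h := (γ⁻¹).2
    rw [Matrix.det_fin_two] at h
    exact h
  have hα : α.det = d := by
    rw [Matrix.det_fin_two_of]
    linear_combination (d : ℤ) * hdet'
  have hd0 : (0 : ℤ) < d := by exact_mod_cast Nat.pos_of_ne_zero (NeZero.ne d)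
  have hg : ((dilMat d * ((γ⁻¹ : SL(2, ℤ)) : GL (Fin 2) ℝ) : GL (Fin 2) ℝ) :
      Matrix (Fin 2) (Fin 2) ℝ) = α.map (Int.cast : ℤ → ℝ) := by
    rw [Units.val_mul]
    rw [coe_GL_eq_map γ⁻¹]
    ext i j
    fin_cases i <;> fin_cases j <;>
      simp [α, dilMat, Matrix.mul_apply, Fin.sum_univ_two]
  obtain ⟨s, hs, hord⟩ := exists_hasTExp_gen (N := N) _ α (by rw [hα]; exact hd0)
    (by rw [hα]; exact Int.natCast_dvd_natCast.mpr hd) hg
  have hfun : (γ • jd N d hd).1 =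
      fun τ => jfun ((dilMat d * ((γ⁻¹ : SL(2, ℤ)) : GL (Fin 2) ℝ)) • τ) := by
    funext τ
    rw [smul_AL_apply, mul_smul]
    rfl
  rw [Psi_JF, smul_algebraMap_AL, texpL_algebraMap, texp_eq (hfun ▸ hs)]
  rw [hα] at hord
  rw [hord]
  have e : Int.gcd (α 0 0) (α 1 0) = Int.gcd (d : ℤ) (γ⁻¹ 1 0) := gcd_mul_left_of_det γ⁻¹ d
  rw [e]

theorem JF_ne_zero (d : ℕ) [NeZero d] (hd : d ∣ N) : JF N d hd ≠ 0 := by
  intro h
  have h1 : Jser d = 0 := congrArg Subtype.val h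
  rw [Jser_eq_qExpand] at h1
  exact Jser_one_ne_zero (qExpand_injective (R := Kbar) d (h1.trans (map_zero _).symm))

/-- **Orders of the `j_d` at a cusp**: `ord_v (j_d)` is proportional to `- gcd (d, c) ^ 2 / d`. -/
theorem exists_ord_JF (v : Place Kbar (FN N)) (hv : v.ord (jF N) < 0) :
    ∃ (c : ℤ) (m : ℕ), 0 < m ∧ ∀ (d : ℕ) [NeZero d] (hd : d ∣ N),
      (m : ℤ) * v.ord (JF N d hd) * d = -((N : ℤ) * (Int.gcd (d : ℤ) c : ℤ) ^ 2) := by
  obtain ⟨γ, m, hm, h⟩ := exists_gamma_of_pole N v hv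
  refine ⟨γ⁻¹ 1 0, m, hm, fun d _ hd => ?_⟩
  rw [← h _ (JF_ne_zero d hd), order_texpL_smul_JF]

end Fermat.Agent.S34.Nodal.Inst.Kron

end
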