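/-
C1 nodal core, instantiation, block K1 (helper214).
Level `M q`, `q` a prime not dividing `M`.  At a place `v` of `FN (M q)`:
* if `j` is finite at `v`, all the `j_d` are finite at `v`;
* if `j` has a pole at `v`, all the `j_d` have a pole and there is ONE ratio `μ ∈ {q, 1/q}` with
  `ord_v (be j_d) = μ ord_v (al j_d)` for all `d ∣ M`.
-/
import Fermat.Agent.S34.Nodal.Inst.Kron.Cusp
import Fermat.Agent.GAL.E.Embed
import Fermat.Agent.S37.JInt
import Fermat.Agent.Lib.EtaFN.OrdNonneg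

set_option autoImplicit false

noncomputable section

namespace Fermat.Agent.S34.Nodal.Inst.Kron

open ModularCurve AlgebraicCurve Fermat.Agent.S24 Fermat.Agent.S24.B Fermat.Agent.GAL.E

/-- `j_d` is finite where `j` is finite (`S37.jInt`: `j_d` is integral over `ℤ[j]`; the valuation ring
of `v` is integrally closed). -/
theorem ord_JF_nonneg {N : ℕ} [NeZero N] (d : ℕ) [NeZero d] (hd : d ∣ N) (v : Place Kbar (FN N))
    (hv : 0 ≤ v.ord (jF N)) : 0 ≤ v.ord (JF N d hd) := by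
  obtain ⟨⟨Φ, hΦ, hev⟩, -⟩ := Fermat.Agent.S37.jInt N d hd
  apply Fermat.Agent.Lib.EtaFN.ord_nonneg_of_isIntegral _ _ v hv
  let φ : Polynomial ℤ →+* Algebra.adjoin ℤ {jF N} :=
    (Polynomial.aeval (R := ℤ) (⟨jF N, Algebra.self_mem_adjoin_singleton ℤ (jF N)⟩ :
      Algebra.adjoin ℤ {jF N})).toRingHom
  refine ⟨Φ.map φ, hΦ.map φ, ?_⟩
  rw [Polynomial.eval₂_map]
  have e : (algebraMap (Algebra.adjoin ℤ {jF N}) (FN N)).comp φ =
      (Polynomial.aeval (R := ℤ) (jF N)).toRingHom := by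
    apply Polynomial.ringHom_ext
    · intro a
      simp [φ]
    · simp [φ]
  rw [e]
  exact hev

/-- `j_d` has a pole where `j` has a pole (`exists_ord_JF`). -/
theorem ord_JF_neg {N : ℕ} [NeZero N] (d : ℕ) [NeZero d] (hd : d ∣ N) (v : Place Kbar (FN N))
    (hv : v.ord (jF N) < 0) : v.ord (JF N d hd) < 0 := by
  obtain ⟨c, m, hm, h⟩ := exists_ord_JF v hv
  have h1 := h d hd
  have hd0 : 0 < d := Nat.pos_of_ne_zero (NeZero.ne d)
  have hN0 : 0 < N := Nat.pos_of_ne_zero (NeZero.ne N)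
  have hg : 0 < Int.gcd (d : ℤ) c := Int.gcd_pos_of_ne_zero_left _ (by exact_mod_cast hd0.ne')
  by_contra hcon
  rw [not_lt] at hcon
  have h2 : 0 ≤ (m : ℤ) * v.ord (JF N d hd) * d := by positivity
  have h3 : 0 < (N : ℤ) * (Int.gcd (d : ℤ) c : ℤ) ^ 2 := by positivity
  omega

variable {M q : ℕ} [NeZero M] [NeZero q]

/-- The dichotomy at a cusp. -/
theorem ord_beta_JF_dichotomy (hq : q.Prime) (hqM : ¬ q ∣ M) (v : Place Kbar (FN (M * q)))
    (hv : v.ord (jF (M * q)) < 0) :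
    (∀ (d : ℕ) [NeZero d] (hd : d ∣ M),
      v.ord (heckeBetaBar Kbar M q (JF M d hd)) = q * v.ord (heckeAlphaBar Kbar M q (JF M d hd))) ∨
    (∀ (d : ℕ) [NeZero d] (hd : d ∣ M),
      q * v.ord (heckeBetaBar Kbar M q (JF M d hd)) = v.ord (heckeAlphaBar Kbar M q (JF M d hd))) := by
  obtain ⟨c, m, hm, h⟩ := exists_ord_JF v hv
  have hq0 : 0 < q := hq.pos
  have key : ∀ (d : ℕ) (hd : d ∣ M), Int.gcd ((q * d : ℕ) : ℤ) c =
      Int.gcd (q : ℤ) c * Int.gcd (d : ℤ) c := by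
    intro d hd
    have hcop : Nat.Coprime q d :=
      (Nat.Prime.coprime_iff_not_dvd hq).2 fun h => hqM (h.trans hd)
    simp only [Int.gcd, Int.natAbs_natCast]
    rw [Nat.gcd_comm, Nat.Coprime.gcd_mul _ hcop, Nat.gcd_comm, Nat.gcd_comm c.natAbs d]
  have hg : Int.gcd (q : ℤ) c = 1 ∨ Int.gcd (q : ℤ) c = q := by
    have : Int.gcd (q : ℤ) c ∣ q := by
      simp only [Int.gcd, Int.natAbs_natCast]
      exact Nat.gcd_dvd_left _ _
    exact (Nat.dvd_prime hq).1 this
  rcases hg with hg | hg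
  · right
    intro d _ hd
    have hd0 : 0 < d := Nat.pos_of_ne_zero (NeZero.ne d)
    rw [heckeAlphaBar_JF, heckeBetaBar_JF]
    have h1 := h d (hd.mul_right q)
    have h2 := h (q * d) (by rw [mul_comm M q]; exact mul_dvd_mul_left q hd)
    rw [key d hd, hg, one_mul, ← h1] at h2
    have h3 : ((m : ℤ) * d) * (q * v.ord (JF (M * q) (q * d)
        (by rw [mul_comm M q]; exact mul_dvd_mul_left q hd))) =
        ((m : ℤ) * d) * v.ord (JF (M * q) d (hd.mul_right q)) := by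
      push_cast at h2
      linear_combination h2
    exact mul_left_cancel₀ (by positivity) h3
  · left
    intro d _ hd
    have hd0 : 0 < d := Nat.pos_of_ne_zero (NeZero.ne d)
    rw [heckeAlphaBar_JF, heckeBetaBar_JF]
    have h1 := h d (hd.mul_right q)
    have h2 := h (q * d) (by rw [mul_comm M q]; exact mul_dvd_mul_left q hd)
    rw [key d hd, hg] at h2
    have h3 : ((m : ℤ) * d * q) * (v.ord (JF (M * q) (q * d)
        (by rw [mul_comm M q]; exact mul_dvd_mul_left q hd))) =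
        ((m : ℤ) * d * q) * (q * v.ord (JF (M * q) d (hd.mul_right q))) := by
      push_cast at h1 h2
      linear_combination h2 - (q : ℤ) ^ 2 * h1
    exact mul_left_cancel₀ (by positivity) h3

theorem ord_alpha_JF_neg (v : Place Kbar (FN (M * q))) (hv : v.ord (jF (M * q)) < 0)
    (d : ℕ) [NeZero d] (hd : d ∣ M) : v.ord (heckeAlphaBar Kbar M q (JF M d hd)) < 0 := by
  rw [heckeAlphaBar_JF]
  exact ord_JF_neg _ _ v hv

theorem ord_beta_JF_neg (v : Place Kbar (FN (M * q))) (hv : v.ord (jF (M * q)) < 0)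
    (d : ℕ) [NeZero d] (hd : d ∣ M) : v.ord (heckeBetaBar Kbar M q (JF M d hd)) < 0 := by
  rw [heckeBetaBar_JF]
  exact ord_JF_neg _ _ v hv

theorem ord_alpha_JF_nonneg (v : Place Kbar (FN (M * q))) (hv : 0 ≤ v.ord (jF (M * q)))
    (d : ℕ) [NeZero d] (hd : d ∣ M) : 0 ≤ v.ord (heckeAlphaBar Kbar M q (JF M d hd)) := by
  rw [heckeAlphaBar_JF]
  exact ord_JF_nonneg _ _ v hv

theorem ord_beta_JF_nonneg (v : Place Kbar (FN (M * q))) (hv : 0 ≤ v.ord (jF (M * q)))
    (d : ℕ) [NeZero d] (hd : d ∣ M) : 0 ≤ v.ord (heckeBetaBar Kbar M q (JF M d hd)) := by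
  rw [heckeBetaBar_JF]
  exact ord_JF_nonneg _ _ v hv

end Fermat.Agent.S34.Nodal.Inst.Kron

end
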